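import Mathlib
import Fermat.Agent.LT.H556.A0
import Fermat.Agent.LT.T1.Spec
import Fermat.Agent.LT.T5.Spec
import Fermat.Agent.LT.T5.H29.TwSpec

/-!
# Row LT, tower T5, sub-leaf T5.07g `RaySlabC` (helper655) — OFF-MAIN

Spec bytes: `T5/H29/TwSpec.lean` = helper29@dedb60878 (sha256 08555f0f), `T5/Spec.lean`
(sha256 0d469f71), `T1/Spec.lean` (sha256 e8ae48d6), `H556/A0.lean` (sha256 66d3374a).

PROVED here: `raySlabC655 : T5.H29.RaySlabC K` for every number field `K`, VERBATIM.

* the generator `r` of the discrete ray is a scalar matrix (`rayGen_eq_diagonal655`), hence central;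
* its powers lie on the central ray (`isCentralRay_zpow655`);
* `‖det r‖_𝔸 = t^{2 [K:ℚ]} = 2` (`detNorm_rayGen655`), so a power of `r` moves every element into
  the slab;
* the slab is `GL₂(K)`-invariant by the product formula (third clause of `T1.AdNormC`).
-/

set_option autoImplicit false

open IsDedekindDomain NumberField
open scoped MatrixGroups

noncomputable section

namespace Fermat.Agent.LT.T5.H655

open Fermat.Agent.LT.H556.A0 Fermat.Agent.LT.T5 Fermat.Agent.LT

variable {K : Type} [Field K] [NumberField K]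

/-! ## Components -/

/-- Two adeles with the same components are equal. -/
theorem adl_ext655 {x y : Adl K} (hinf : ∀ w : InfinitePlace K, infHom w x = infHom w y)
    (hfin : ∀ v : HeightOneSpectrum (𝓞 K), finHom v x = finHom v y) : x = y := by
  refine Prod.ext ?_ ?_
  · funext w
    exact (InfinitePlace.Completion.extensionEmbedding w).injective (hinf w)
  · exact RestrictedProduct.ext _ _ hfin

theorem infHom_entry655 (w : InfinitePlace K) (g : G K) (i j : Fin 2) :
    infHom w ((g : Matrix (Fin 2) (Fin 2) (Adl K)) i j) = infComp w g i j := rfl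

theorem finHom_entry655 (v : HeightOneSpectrum (𝓞 K)) (g : G K) (i j : Fin 2) :
    finHom v ((g : Matrix (Fin 2) (Fin 2) (Adl K)) i j) = finComp v g i j := rfl

theorem infHom_det655 (w : InfinitePlace K) (g : G K) :
    infHom w (Matrix.det (g : Matrix (Fin 2) (Fin 2) (Adl K))) = (infComp w g).det := by
  rw [infComp_eq_map, RingHom.map_det]
  rfl

theorem finHom_det655 (v : HeightOneSpectrum (𝓞 K)) (g : G K) :
    finHom v (Matrix.det (g : Matrix (Fin 2) (Fin 2) (Adl K))) = (finComp v g).det := by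
  rw [finComp_eq_map, RingHom.map_det]
  rfl

theorem norm_inf655 (w : InfinitePlace K) (x : Adl K) : ‖x.1 w‖ = ‖infHom w x‖ :=
  ((InfinitePlace.Completion.isometry_extensionEmbedding w).norm_map_of_map_zero
    (map_zero _) (x.1 w)).symm


/-! ## The generator of the ray is a scalar matrix -/

/-- A matrix which is `1` at every finite place and the scalar `t` at every infinite place is a
scalar matrix. -/
theorem eq_diagonal_of_comp655 {r : G K} {t : ℝ}
    (hfin : ∀ v : HeightOneSpectrum (𝓞 K), TrivAtFin v r)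
    (hinf : ∀ w : InfinitePlace K, infComp w r = Matrix.diagonal (fun _ => (t : ℂ))) :
    (r : Matrix (Fin 2) (Fin 2) (Adl K))
      = Matrix.diagonal (fun _ => (r : Matrix (Fin 2) (Fin 2) (Adl K)) 0 0) := by
  have hI : ∀ (w : InfinitePlace K) (i j : Fin 2),
      infHom w ((r : Matrix (Fin 2) (Fin 2) (Adl K)) i j)
        = (Matrix.diagonal (fun _ => (t : ℂ)) : Matrix (Fin 2) (Fin 2) ℂ) i j := by
    intro w i j
    rw [infHom_entry655, hinf w]
  have hF : ∀ (v : HeightOneSpectrum (𝓞 K)) (i j : Fin 2),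
      finHom v ((r : Matrix (Fin 2) (Fin 2) (Adl K)) i j)
        = (1 : Matrix (Fin 2) (Fin 2) (v.adicCompletion K)) i j := by
    intro v i j
    rw [finHom_entry655, hfin v]
  ext i j
  by_cases hij : i = j
  · subst hij
    rw [Matrix.diagonal_apply_eq]
    refine adl_ext655 (fun w => ?_) (fun v => ?_)
    · rw [hI, hI, Matrix.diagonal_apply_eq, Matrix.diagonal_apply_eq]
    · rw [hF, hF, Matrix.one_apply_eq, Matrix.one_apply_eq]
  · rw [Matrix.diagonal_apply_ne _ hij]
    refine adl_ext655 (fun w => ?_) (fun v => ?_)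
    · rw [hI, Matrix.diagonal_apply_ne _ hij, map_zero]
    · rw [hF, Matrix.one_apply_ne hij, map_zero]

/-- A scalar matrix is central in `GL₂(𝔸_K)`. -/
theorem central_of_diagonal655 {r : G K} {c : Adl K}
    (hr : (r : Matrix (Fin 2) (Fin 2) (Adl K)) = Matrix.diagonal (fun _ => c)) (g : G K) :
    g * r = r * g := by
  apply Units.ext
  have h := (Matrix.scalar_commute (n := Fin 2) c (fun r' => Commute.all c r')
    (g : Matrix (Fin 2) (Fin 2) (Adl K))).eq
  rw [Units.val_mul, Units.val_mul]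
  change (g : Matrix (Fin 2) (Fin 2) (Adl K)) * (r : Matrix (Fin 2) (Fin 2) (Adl K))
    = (r : Matrix (Fin 2) (Fin 2) (Adl K)) * (g : Matrix (Fin 2) (Fin 2) (Adl K))
  rw [hr]
  exact h.symm

/-! ## Powers of a point of the central ray -/

/-- The component maps as group homomorphisms. -/
def infGL655 (w : InfinitePlace K) : G K →* GL (Fin 2) ℂ :=
  Matrix.GeneralLinearGroup.map (infHom w)

/-- The component maps as group homomorphisms. -/
def finGL655 (v : HeightOneSpectrum (𝓞 K)) : G K →* GL (Fin 2) (v.adicCompletion K) :=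
  Matrix.GeneralLinearGroup.map (finHom v)

theorem infGL_val655 (w : InfinitePlace K) (g : G K) :
    ((infGL655 w g : GL (Fin 2) ℂ) : Matrix (Fin 2) (Fin 2) ℂ) = infComp w g := rfl

theorem finGL_val655 (v : HeightOneSpectrum (𝓞 K)) (g : G K) :
    ((finGL655 v g : GL (Fin 2) (v.adicCompletion K)) :
      Matrix (Fin 2) (Fin 2) (v.adicCompletion K)) = finComp v g := rfl

/-- The scalar matrices of `GL₂(ℂ)`. -/
def scalGL655 : ℂˣ →* GL (Fin 2) ℂ :=
  Units.map (Matrix.scalar (Fin 2) : ℂ →+* Matrix (Fin 2) (Fin 2) ℂ).toMonoidHom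

theorem scalGL_val655 (u : ℂˣ) :
    ((scalGL655 u : GL (Fin 2) ℂ) : Matrix (Fin 2) (Fin 2) ℂ)
      = Matrix.diagonal (fun _ => (u : ℂ)) := rfl

/-- Powers of a point of the central ray lie on the central ray. -/
theorem isCentralRay_zpow_of_comp655 {r : G K} {t : ℝ} (ht : 0 < t)
    (hfin : ∀ v : HeightOneSpectrum (𝓞 K), TrivAtFin v r)
    (hinf : ∀ w : InfinitePlace K, infComp w r = Matrix.diagonal (fun _ => (t : ℂ)))
    (m : ℤ) : IsCentralRay (r ^ m) := by
  have htC : (t : ℂ) ≠ 0 := Complex.ofReal_ne_zero.2 ht.ne'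
  refine ⟨fun v => ?_, t ^ m, zpow_pos ht m, fun w => ?_⟩
  · have h1 : finGL655 v r = 1 := by
      apply Units.ext
      rw [finGL_val655]
      exact hfin v
    show finComp v (r ^ m) = 1
    rw [← finGL_val655, map_zpow, h1, one_zpow]
    rfl
  · have h1 : infGL655 w r = scalGL655 (Units.mk0 (t : ℂ) htC) := by
      apply Units.ext
      rw [infGL_val655, scalGL_val655, hinf w]
      rfl
    rw [← infGL_val655, map_zpow, h1, ← map_zpow, scalGL_val655]
    congr 1
    funext _
    rw [Units.val_zpow_eq_zpow_val, Units.val_mk0, Complex.ofReal_zpow]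


/-! ## The module of the determinant -/

theorem adNorm_eq655 (x : Adl K) : T5.adNorm x = T1.adNorm K x := rfl

theorem adNorm_def655 (x : Adl K) :
    T1.adNorm K x = (∏ w : InfinitePlace K, ‖infHom w x‖ ^ w.mult)
      * ∏ᶠ v : HeightOneSpectrum (𝓞 K), ‖finHom v x‖ := by
  unfold T1.adNorm
  congr 1
  exact Finset.prod_congr rfl fun w _ => by rw [norm_inf655]

/-- The module as a monoid homomorphism on the ideles. -/
def normHom655 (hN : T1.AdNormC K) : (Adl K)ˣ →* ℝ where
  toFun u := T1.adNorm K (u : Adl K)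
  map_one' := by
    have h := hN.2.1 1 1
    have hp := hN.1 1
    rw [mul_one] at h
    have h2 : T1.adNorm K ((1 : (Adl K)ˣ) : Adl K) * (T1.adNorm K ((1 : (Adl K)ˣ) : Adl K) - 1)
        = 0 := by
      rw [mul_sub, mul_one, ← h, sub_self]
    rcases mul_eq_zero.1 h2 with h3 | h3
    · exact absurd h3 hp.ne'
    · exact sub_eq_zero.1 h3
  map_mul' := hN.2.1

theorem normHom_apply655 (hN : T1.AdNormC K) (u : (Adl K)ˣ) :
    normHom655 hN u = T1.adNorm K (u : Adl K) := rfl

theorem normHom_pos655 (hN : T1.AdNormC K) (u : (Adl K)ˣ) : 0 < normHom655 hN u := hN.1 u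

theorem normHom_inv655 (hN : T1.AdNormC K) (u : (Adl K)ˣ) :
    normHom655 hN u⁻¹ = (normHom655 hN u)⁻¹ := by
  have h : normHom655 hN u⁻¹ * normHom655 hN u = 1 := by
    rw [← map_mul, inv_mul_cancel, map_one]
  exact eq_inv_of_mul_eq_one_left h

theorem normHom_zpow655 (hN : T1.AdNormC K) (u : (Adl K)ˣ) (m : ℤ) :
    normHom655 hN (u ^ m) = normHom655 hN u ^ m :=
  map_zpow' (normHom655 hN) (normHom_inv655 hN) u m

/-- The module of the determinant, as a monoid homomorphism on `GL₂(𝔸_K)`. -/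
def detNorm655 (hN : T1.AdNormC K) : G K →* ℝ :=
  (normHom655 hN).comp Matrix.GeneralLinearGroup.det

theorem detNorm_apply655 (hN : T1.AdNormC K) (g : G K) :
    detNorm655 hN g = T5.adNorm (Matrix.det (g : Matrix (Fin 2) (Fin 2) (Adl K))) := rfl

theorem detNorm_zpow655 (hN : T1.AdNormC K) (g : G K) (m : ℤ) :
    detNorm655 hN (g ^ m) = detNorm655 hN g ^ m := by
  unfold detNorm655
  rw [MonoidHom.comp_apply, map_zpow, normHom_zpow655, MonoidHom.comp_apply]

theorem mem_slab_iff655 (hN : T1.AdNormC K) (g : G K) :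
    g ∈ slab K ↔ 1 ≤ detNorm655 hN g ∧ detNorm655 hN g < 2 := Iff.rfl

/-- Product formula: the module of the determinant is `1` on `GL₂(K)`. -/
theorem detNorm_ratG655 (hN : T1.AdNormC K) (γ : GL (Fin 2) K) :
    detNorm655 hN (ratG γ) = 1 := by
  have h := hN.2.2.1 (Matrix.GeneralLinearGroup.det γ)
  have e : Matrix.GeneralLinearGroup.det (ratG γ : G K)
      = T1.ratUnit K (Matrix.GeneralLinearGroup.det γ) := by
    apply Units.ext
    show Matrix.det ((γ : Matrix (Fin 2) (Fin 2) K).map (algebraMap K (Adl K)))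
      = algebraMap K (Adl K) (Matrix.det (γ : Matrix (Fin 2) (Fin 2) K))
    exact ((algebraMap K (Adl K)).map_det _).symm
  unfold detNorm655
  rw [MonoidHom.comp_apply, e, normHom_apply655]
  exact h

/-- `‖det r‖_𝔸 = t^{2 [K : ℚ]}` for the scalar `t` at the infinite places. -/
theorem detNorm_of_comp655 (hN : T1.AdNormC K) {r : G K} {t : ℝ} (ht : 0 < t)
    (hfin : ∀ v : HeightOneSpectrum (𝓞 K), TrivAtFin v r)
    (hinf : ∀ w : InfinitePlace K, infComp w r = Matrix.diagonal (fun _ => (t : ℂ))) :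
    detNorm655 hN r = t ^ (2 * Module.finrank ℚ K) := by
  rw [detNorm_apply655, adNorm_eq655, adNorm_def655]
  have h1 : ∀ v : HeightOneSpectrum (𝓞 K),
      ‖finHom v (Matrix.det (r : Matrix (Fin 2) (Fin 2) (Adl K)))‖ = 1 := by
    intro v
    rw [finHom_det655, hfin v, Matrix.det_one, norm_one]
  have h2 : ∀ w : InfinitePlace K,
      ‖infHom w (Matrix.det (r : Matrix (Fin 2) (Fin 2) (Adl K)))‖ = t ^ 2 := by
    intro w
    rw [infHom_det655, hinf w, Matrix.det_diagonal, Fin.prod_univ_two, norm_mul,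
      Complex.norm_real, Real.norm_of_nonneg ht.le, sq]
  rw [finprod_eq_one_of_forall_eq_one h1, mul_one]
  simp only [h2]
  rw [Finset.prod_pow_eq_pow_sum, ← pow_mul, InfinitePlace.sum_mult_eq]


/-! ## The leaf -/

/-- Every element is moved into the slab by a power of an element of module `2`. -/
theorem exists_zpow_mem_slab655 (hN : T1.AdNormC K) {r : G K} (hr : detNorm655 hN r = 2)
    (x : G K) : ∃ j : ℤ, x * r ^ j ∈ slab K := by
  have hx : 0 < detNorm655 hN x := normHom_pos655 hN _
  obtain ⟨n, hn1, hn2⟩ := exists_mem_Ico_zpow hx (one_lt_two : (1 : ℝ) < 2)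
  have h2n : (0 : ℝ) < 2 ^ n := zpow_pos two_pos n
  refine ⟨-n, ?_⟩
  rw [mem_slab_iff655 hN, map_mul, detNorm_zpow655, hr, zpow_neg]
  constructor
  · rw [← div_eq_mul_inv, le_div_iff₀ h2n, one_mul]
    exact hn1
  · rw [← div_eq_mul_inv, div_lt_iff₀ h2n]
    calc detNorm655 hN x < 2 ^ (n + 1) := hn2
      _ = 2 * 2 ^ n := by rw [zpow_add_one₀ (two_ne_zero : (2 : ℝ) ≠ 0), mul_comm]

/-- **T5.07g `RaySlabC`**, VERBATIM. -/
theorem raySlabC655 (K : Type) [Field K] [NumberField K] : T5.H29.RaySlabC K := by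
  intro hN
  refine ⟨fun r hr => ?_, fun γ x hx => ?_⟩
  · obtain ⟨hfin, t, ht, ht2, hinf⟩ := hr
    refine ⟨fun g => central_of_diagonal655 (eq_diagonal_of_comp655 hfin hinf) g,
      fun m => isCentralRay_zpow_of_comp655 ht hfin hinf m,
      fun x => exists_zpow_mem_slab655 hN ?_ x⟩
    rw [detNorm_of_comp655 hN ht hfin hinf, ht2]
  · rw [mem_slab_iff655 hN] at hx ⊢
    rw [map_mul, detNorm_ratG655, one_mul]
    exact hx

end Fermat.Agent.LT.T5.H655

end
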